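/-
Parabolic-elliptic homomorphisms of a subgroup of SL(2, ℤ): basic definitions.
-/
import Fermat.Prelude.Def_ModularCurve_PeriodMap
import Mathlib.NumberTheory.Modular
import Mathlib.GroupTheory.Index
import Mathlib.GroupTheory.GroupAction.Quotient
import Mathlib.Algebra.Group.Torsion

set_option autoImplicit false

namespace Fermat.Agent.ParHom

open scoped MatrixGroups
open ModularGroup ModularCurve.Period

/-- the trace of an element of `SL(2, ℤ)` -/
def tr (g : SL(2, ℤ)) : ℤ := (g : Matrix (Fin 2) (Fin 2) ℤ).trace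

/-- `S * T`, of order six in `SL(2, ℤ)`, of order three on the upper half plane. -/
def U : SL(2, ℤ) := S * T

variable (Γ : Subgroup SL(2, ℤ))

/-- A homomorphism killing all parabolic and elliptic elements of `Γ`. -/
def IsParEllHom {A : Type*} [AddCommGroup A] (φ : Additive Γ →+ A) : Prop :=
  ∀ γ : Γ, tr (γ : SL(2, ℤ)) ^ 2 ≤ 4 → φ (Additive.ofMul γ) = 0

/-- The module of homomorphisms `Γ → A` killing parabolic and elliptic elements. -/
def parEllHoms (R : Type*) [Semiring R] (A : Type*) [AddCommGroup A] [Module R A] :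
    Submodule R (Additive Γ →+ A) where
  carrier := {φ | IsParEllHom Γ φ}
  zero_mem' := fun _ _ => rfl
  add_mem' := by
    intro φ ψ hφ hψ γ hγ
    simp [hφ γ hγ, hψ γ hγ]
  smul_mem' := by
    intro c φ hφ γ hγ
    simp [hφ γ hγ]

variable {Γ}

theorem mem_parEllHoms {R : Type*} [Semiring R] {A : Type*} [AddCommGroup A] [Module R A]
    {φ : Additive Γ →+ A} : φ ∈ parEllHoms Γ R A ↔ IsParEllHom Γ φ :=
  Iff.rfl

theorem IsParEllHom.isParabolicHom {A : Type*} [AddCommGroup A] {φ : Additive Γ →+ A}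
    (hφ : IsParEllHom Γ φ) : IsParabolicHom Γ φ :=
  fun γ hγ => hφ γ (le_of_eq hγ)

theorem IsParEllHom.comp {A B : Type*} [AddCommGroup A] [AddCommGroup B]
    {φ : Additive Γ →+ A} (hφ : IsParEllHom Γ φ) (f : A →+ B) : IsParEllHom Γ (f.comp φ) := by
  intro γ hγ
  simp [hφ γ hγ]

variable (Γ)

/-- The number of orbits of the cyclic group generated by `g` on `SL(2, ℤ) ⧸ Γ`. -/
noncomputable def orbitCount (g : SL(2, ℤ)) : ℕ :=
  Nat.card (MulAction.orbitRel.Quotient (Subgroup.zpowers g) (SL(2, ℤ) ⧸ Γ))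

/-- The rank of the parabolic homomorphisms of `Γ` (twice the genus of `Γ \ ℍ`). -/
noncomputable def parRank : ℕ :=
  Γ.index + 2 - (orbitCount Γ S + orbitCount Γ U + orbitCount Γ T)

end Fermat.Agent.ParHom
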