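/-
The difference operator of a group element on functions on a finite set.
-/
import Mathlib.GroupTheory.GroupAction.Quotient
import Mathlib.LinearAlgebra.Dimension.Constructions
import Mathlib.LinearAlgebra.FiniteDimensional.Lemmas
import Mathlib.Dynamics.PeriodicPts.Defs
import Mathlib.Algebra.BigOperators.Intervals

set_option autoImplicit false

namespace Fermat.Agent.ParHom

open Finset

variable {G X : Type*} [Group G] [MulAction G X]

section Defs

variable (R : Type*) [Semiring R] (A : Type*) [AddCommGroup A] [Module R A]

/-- `u ↦ u (g • ·) - u` -/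
def delta (g : G) : (X → A) →ₗ[R] (X → A) where
  toFun u x := u (g • x) - u x
  map_add' u v := by ext x; simp only [Pi.add_apply]; abel
  map_smul' r u := by ext x; simp [smul_sub]

@[simp] theorem delta_apply (g : G) (u : X → A) (x : X) : delta R A g u x = u (g • x) - u x := rfl

end Defs

variable {R : Type*} [Semiring R] {A : Type*} [AddCommGroup A] [Module R A]

theorem sum_range_delta (g : G) (u : X → A) (x : X) (n : ℕ) :
    ∑ i ∈ range n, delta R A g u (g ^ i • x) = u (g ^ n • x) - u x := by
  have h := Finset.sum_range_sub (fun i => u (g ^ i • x)) n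
  simp only [pow_zero, one_smul] at h
  rw [← h]
  refine Finset.sum_congr rfl fun i _ => ?_
  rw [delta_apply, ← mul_smul, ← pow_succ']

theorem exists_pos_pow_smul [Finite X] (g : G) (x : X) : ∃ n, 0 < n ∧ g ^ n • x = x := by
  obtain ⟨i, j, hne, h⟩ := Finite.exists_ne_map_eq_of_infinite fun i : ℕ => g ^ i • x
  wlog hlt : i < j generalizing i j
  · exact this j i (Ne.symm hne) h.symm (lt_of_le_of_ne (not_lt.1 hlt) (Ne.symm hne))
  refine ⟨j - i, Nat.sub_pos_of_lt hlt, smul_left_cancel (g ^ i) ?_⟩
  rw [← mul_smul, ← pow_add, Nat.add_sub_cancel' hlt.le]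
  exact h.symm

/-- `f` is a difference iff its sums over all periods vanish. -/
theorem mem_range_delta_iff [Finite X] (g : G) (f : X → A) :
    f ∈ LinearMap.range (delta R A g) ↔
      ∀ (x : X) (n : ℕ), g ^ n • x = x → ∑ i ∈ range n, f (g ^ i • x) = 0 := by
  constructor
  · rintro ⟨u, rfl⟩ x n hn
    rw [sum_range_delta, hn, sub_self]
  · intro h
    -- independence of the chosen exponent
    have key : ∀ (r : X) (i k : ℕ), g ^ i • r = g ^ k • r →
        ∑ j ∈ range i, f (g ^ j • r) = ∑ j ∈ range k, f (g ^ j • r) := by
      intro r i k hik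
      wlog hle : i ≤ k generalizing i k
      · exact (this k i hik.symm (le_of_not_ge hle)).symm
      obtain ⟨d, rfl⟩ := Nat.exists_eq_add_of_le hle
      rw [sum_range_add]
      have h0 : g ^ d • (g ^ i • r) = g ^ i • r := by
        rw [← mul_smul, ← pow_add, add_comm, ← hik]
      have := h _ d h0
      rw [show ∑ x ∈ range d, f (g ^ (i + x) • r) = 0 by
        rw [← this]; refine sum_congr rfl fun j _ => ?_
        rw [← mul_smul, ← pow_add, add_comm], add_zero]
    classical
    have hrep : ∀ x : X, ∃ i : ℕ,
        g ^ i • (Quotient.out (Quotient.mk (MulAction.orbitRel (Subgroup.zpowers g) X) x)) = x := by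
      intro x
      set r := Quotient.out (Quotient.mk (MulAction.orbitRel (Subgroup.zpowers g) X) x)
      obtain ⟨⟨a, ha⟩, hax⟩ : x ∈ MulAction.orbit (Subgroup.zpowers g) r :=
        MulAction.orbitRel_apply.1 ((MulAction.orbitRel (Subgroup.zpowers g) X).symm
          (Quotient.mk_out (s := MulAction.orbitRel (Subgroup.zpowers g) X) x))
      obtain ⟨z, rfl⟩ := Subgroup.mem_zpowers_iff.1 ha
      obtain ⟨N, hN, hNr⟩ := exists_pos_pow_smul g r
      refine ⟨(z % N).toNat, ?_⟩
      have hz := Int.emod_nonneg z (show (N : ℤ) ≠ 0 by omega)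
      have hx : g ^ z • r = x := hax
      rw [← hx]
      conv_rhs => rw [← Int.emod_add_mul_ediv z N]
      rw [zpow_add, mul_smul, zpow_mul, zpow_natCast]
      have : (g ^ N) ^ (z / N) • r = r := by
        have hmem : g ^ N ∈ MulAction.stabilizer G r := hNr
        exact zpow_mem hmem _
      rw [this, ← zpow_natCast, Int.toNat_of_nonneg hz]
    choose idx hidx using hrep
    refine ⟨fun x => ∑ j ∈ range (idx x),
      f (g ^ j • Quotient.out (Quotient.mk (MulAction.orbitRel (Subgroup.zpowers g) X) x)), ?_⟩
    funext x
    have hq : Quotient.mk (MulAction.orbitRel (Subgroup.zpowers g) X) (g • x) =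
        Quotient.mk _ x := by
      apply Quotient.sound
      exact MulAction.orbitRel_apply.2 ⟨⟨g, Subgroup.mem_zpowers g⟩, rfl⟩
    rw [delta_apply]
    have h1 := hidx (g • x)
    rw [hq] at h1 ⊢
    set r := Quotient.out (Quotient.mk (MulAction.orbitRel (Subgroup.zpowers g) X) x)
    rw [key r (idx (g • x)) (idx x + 1) (by rw [h1, pow_succ', mul_smul, hidx x]),
      sum_range_succ, hidx x, add_sub_cancel_left]

section Field

variable (K : Type*) [Field K] [Finite X]

theorem finrank_range_delta_add (g : G) :
    Module.finrank K (LinearMap.range (delta (X := X) K K g)) +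
      Nat.card (MulAction.orbitRel.Quotient (Subgroup.zpowers g) X) = Nat.card X := by
  classical
  have : Fintype X := Fintype.ofFinite X
  let π : X → MulAction.orbitRel.Quotient (Subgroup.zpowers g) X := Quotient.mk _
  have : Finite (MulAction.orbitRel.Quotient (Subgroup.zpowers g) X) :=
    Finite.of_surjective π Quotient.mk_surjective
  have : Fintype (MulAction.orbitRel.Quotient (Subgroup.zpowers g) X) := Fintype.ofFinite _
  have hker : LinearMap.range (LinearMap.funLeft K K π) = LinearMap.ker (delta (X := X) K K g) := by
    ext u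
    constructor
    · rintro ⟨v, rfl⟩
      rw [LinearMap.mem_ker]
      funext x
      have : π (g • x) = π x :=
        Quotient.sound (MulAction.orbitRel_apply.2 ⟨⟨g, Subgroup.mem_zpowers g⟩, rfl⟩)
      simp [this]
    · intro hu
      have hu' : ∀ x, u (g • x) = u x := fun x => sub_eq_zero.1 (congrFun hu x)
      have hinv : ∀ h ∈ Subgroup.zpowers g, ∀ x, u (h • x) = u x := by
        intro h hh
        rw [Subgroup.zpowers_eq_closure] at hh
        induction hh using Subgroup.closure_induction with
        | mem y hy => rw [Set.mem_singleton_iff.1 hy]; exact hu'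
        | one => simp
        | mul a b _ _ ha hb => intro x; rw [mul_smul, ha, hb]
        | inv a _ ha => intro x; have := ha (a⁻¹ • x); simp at this; exact this.symm
      refine ⟨fun q => u q.out, ?_⟩
      funext x
      obtain ⟨⟨h, hh⟩, hx⟩ := MulAction.orbitRel_apply.1
        (Quotient.mk_out (s := MulAction.orbitRel (Subgroup.zpowers g) X) x)
      show u (π x).out = u x
      rw [← hx]
      exact hinv h hh x
  have h1 := LinearMap.finrank_range_add_finrank_ker (delta (X := X) K K g)
  rw [← hker, LinearMap.finrank_range_of_inj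
    (LinearMap.funLeft_injective_of_surjective K K π Quotient.mk_surjective)] at h1
  simp only [Module.finrank_fintype_fun_eq_card] at h1
  simp only [Nat.card_eq_fintype_card]
  exact h1

end Field

end Fermat.Agent.ParHom
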