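/-
Elements of SL(2, ℤ) with trace squared at most four are conjugate, up to sign, to powers of
S, U = S * T and T.
-/
import Fermat.Agent.ParHom.Defs
import Mathlib.Tactic.LinearCombination
import Mathlib.Tactic.FinCases
import Mathlib.Data.Int.Lemmas

set_option autoImplicit false

namespace Fermat.Agent.ParHom

open scoped MatrixGroups
open ModularGroup Matrix

theorem coe_U : (U : Matrix (Fin 2) (Fin 2) ℤ) = !![0, -1; 1, 1] := by
  simp [U, coe_S, coe_T]

theorem S_sq : S * S = -1 := by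
  ext i j; fin_cases i <;> fin_cases j <;> simp [coe_S]

theorem U_cube : U * U * U = -1 := by
  ext i j; fin_cases i <;> fin_cases j <;> simp [coe_U]

theorem S_pow_four : S ^ 4 = 1 := by
  rw [show S ^ 4 = S * S * (S * S) by simp [pow_succ, mul_assoc], S_sq]; simp

theorem U_pow_six : U ^ 6 = 1 := by
  rw [show U ^ 6 = U * U * U * (U * U * U) by simp [pow_succ, mul_assoc], U_cube]; simp

theorem tr_eq (g : SL(2, ℤ)) : tr g = g 0 0 + g 1 1 := Matrix.trace_fin_two _

theorem tr_neg (g : SL(2, ℤ)) : tr (-g) = -tr g := by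
  simp [tr_eq]; ring

theorem tr_conj (h g : SL(2, ℤ)) : tr (h * g * h⁻¹) = tr g := by
  unfold tr
  rw [SpecialLinearGroup.coe_mul, trace_mul_comm, ← SpecialLinearGroup.coe_mul, ← mul_assoc,
    inv_mul_cancel, one_mul]

theorem tr_S_zpow_sq_le (n : ℤ) : tr (S ^ n) ^ 2 ≤ 4 := by
  have hmod : S ^ n = S ^ (n % 4) := by
    conv_lhs => rw [← Int.mul_ediv_add_emod n 4]
    rw [_root_.zpow_add, _root_.zpow_mul]
    simp [show S ^ (4 : ℤ) = 1 from by exact_mod_cast S_pow_four]
  rw [hmod]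
  have h0 := Int.emod_nonneg n (by norm_num : (4 : ℤ) ≠ 0)
  have h1 := Int.emod_lt_of_pos n (by norm_num : (0 : ℤ) < 4)
  interval_cases n % 4 <;> simp [tr_eq, zpow_ofNat, pow_succ, coe_S]

theorem tr_U_zpow_sq_le (n : ℤ) : tr (U ^ n) ^ 2 ≤ 4 := by
  have hmod : U ^ n = U ^ (n % 6) := by
    conv_lhs => rw [← Int.mul_ediv_add_emod n 6]
    rw [_root_.zpow_add, _root_.zpow_mul]
    simp [show U ^ (6 : ℤ) = 1 from by exact_mod_cast U_pow_six]
  rw [hmod]
  have h0 := Int.emod_nonneg n (by norm_num : (6 : ℤ) ≠ 0)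
  have h1 := Int.emod_lt_of_pos n (by norm_num : (0 : ℤ) < 6)
  interval_cases n % 6 <;> simp [tr_eq, zpow_ofNat, pow_succ, coe_U]

theorem tr_T_zpow (n : ℤ) : tr (T ^ n) = 2 := by
  simp [tr_eq, coe_T_zpow]

/-- `g` is conjugate, up to sign, to a power of `S`, `U` or `T`. -/
def IsSpecial (g : SL(2, ℤ)) : Prop :=
  ∃ (h : SL(2, ℤ)) (n : ℤ) (s : SL(2, ℤ)), (s = S ∨ s = U ∨ s = T) ∧
    (g = h * s ^ n * h⁻¹ ∨ g = -(h * s ^ n * h⁻¹))

theorem IsSpecial.conj {g : SL(2, ℤ)} (hg : IsSpecial g) (k : SL(2, ℤ)) :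
    IsSpecial (k * g * k⁻¹) := by
  obtain ⟨h, n, s, hs, hg⟩ := hg
  refine ⟨k * h, n, s, hs, ?_⟩
  rcases hg with hg | hg
  · left; rw [hg]; group
  · right; rw [hg]; simp [mul_assoc]

theorem IsSpecial.of_conj {g : SL(2, ℤ)} (k : SL(2, ℤ)) (hg : IsSpecial (k * g * k⁻¹)) :
    IsSpecial g := by
  have := hg.conj k⁻¹
  simpa [mul_assoc] using this

theorem IsSpecial.neg {g : SL(2, ℤ)} (hg : IsSpecial g) : IsSpecial (-g) := by
  obtain ⟨h, n, s, hs, hg⟩ := hg
  refine ⟨h, n, s, hs, ?_⟩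
  rcases hg with hg | hg
  · right; rw [hg]
  · left; rw [hg, neg_neg]

theorem coe_conj_T_zpow (g : SL(2, ℤ)) (k : ℤ) :
    ((T ^ k * g * (T ^ k)⁻¹ : SL(2, ℤ)) : Matrix (Fin 2) (Fin 2) ℤ) =
      !![g 0 0 + k * g 1 0, g 0 1 + k * g 1 1 - k * (g 0 0 + k * g 1 0);
        g 1 0, g 1 1 - k * g 1 0] := by
  rw [← zpow_neg, SpecialLinearGroup.coe_mul, SpecialLinearGroup.coe_mul, coe_T_zpow, coe_T_zpow]
  ext i j
  fin_cases i <;> fin_cases j <;> simp [Matrix.mul_apply, Matrix.vecMul, dotProduct, Fin.sum_univ_two] <;> ring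

theorem coe_conj_S (g : SL(2, ℤ)) :
    ((S * g * S⁻¹ : SL(2, ℤ)) : Matrix (Fin 2) (Fin 2) ℤ) =
      !![g 1 1, -g 1 0; -g 0 1, g 0 0] := by
  rw [SpecialLinearGroup.coe_mul, SpecialLinearGroup.coe_mul, SpecialLinearGroup.coe_inv, coe_S]
  ext i j
  fin_cases i <;> fin_cases j <;>
    simp [Matrix.adjugate_fin_two, Matrix.mul_apply, Matrix.vecMul, dotProduct, Fin.sum_univ_two]

theorem det_eq (g : SL(2, ℤ)) : g 0 0 * g 1 1 - g 0 1 * g 1 0 = 1 := by
  have := g.det_coe
  rwa [det_fin_two] at this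

private theorem isSpecial_aux (m : ℕ) : ∀ g : SL(2, ℤ), (g 1 0).natAbs = m →
    tr g ^ 2 ≤ 4 → IsSpecial g := by
  induction m using Nat.strong_induction_on with
  | _ m ih =>
    intro g hm ht
    by_cases hc : g 1 0 = 0
    · have hd := det_eq g
      rw [hc, mul_zero, sub_zero] at hd
      rcases Int.eq_one_or_neg_one_of_mul_eq_one' hd with ⟨ha, hd'⟩ | ⟨ha, hd'⟩
      · refine ⟨1, g 0 1, T, Or.inr (Or.inr rfl), Or.inl ?_⟩
        apply Subtype.ext
        rw [one_mul, inv_one, mul_one, coe_T_zpow]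
        ext i j
        fin_cases i <;> fin_cases j <;> simp [ha, hd', hc]
      · refine ⟨1, -g 0 1, T, Or.inr (Or.inr rfl), Or.inr ?_⟩
        apply Subtype.ext
        rw [one_mul, inv_one, mul_one, SpecialLinearGroup.coe_neg, coe_T_zpow]
        ext i j
        fin_cases i <;> fin_cases j <;> simp [ha, hd', hc]
    · -- reduce the diagonal by a translation
      obtain ⟨k, hk⟩ : ∃ k : ℤ, |g 0 0 - g 1 1 + 2 * k * g 1 0| ≤ |g 1 0| := by
        set c := g 1 0
        set e := g 0 0 - g 1 1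
        have hpos : 0 < 2 * |c| := by positivity
        have h1 := Int.emod_add_mul_ediv (e + |c|) (2 * |c|)
        have h2 := Int.emod_nonneg (e + |c|) hpos.ne'
        have h3 := Int.emod_lt_of_pos (e + |c|) hpos
        rcases abs_choice c with h | h <;> rw [h] at h1 h2 h3 hpos ⊢
        · exact ⟨-((e + c) / (2 * c)), abs_le.2 ⟨by linarith, by linarith⟩⟩
        · exact ⟨(e + -c) / (2 * -c), abs_le.2 ⟨by linarith, by linarith⟩⟩
      apply IsSpecial.of_conj (T ^ k)
      set g' := T ^ k * g * (T ^ k)⁻¹ with hg'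
      have hco := coe_conj_T_zpow g k
      rw [← hg'] at hco
      have hk' : |g' 0 0 - g' 1 1| ≤ |g 1 0| := by
        have : g' 0 0 - g' 1 1 = g 0 0 - g 1 1 + 2 * k * g 1 0 := by
          simp [hco]; ring
        rw [this]; exact hk
      have hc' : g' 1 0 = g 1 0 := by simp [hco]
      have ht' : tr g' ^ 2 ≤ 4 := by rw [hg', tr_conj]; exact ht
      have hd := det_eq g'
      clear_value g'
      clear hg' hco hk k ht
      rw [← hc'] at hc hm hk'
      clear hc'
      by_cases hb : (g' 0 1).natAbs < m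
      · apply IsSpecial.of_conj S
        refine ih _ hb _ ?_ (by rw [tr_conj]; exact ht')
        rw [coe_conj_S]; simp
      · push Not at hb
        rw [← hm] at hb
        replace hb : g' 1 0 ^ 2 ≤ g' 0 1 ^ 2 := Int.natAbs_le_iff_sq_le.1 hb
        rw [tr_eq] at ht'
        have h4 : 4 * (g' 0 1 * g' 1 0) =
            (g' 0 0 + g' 1 1) ^ 2 - (g' 0 0 - g' 1 1) ^ 2 - 4 := by
          linear_combination (-4 : ℤ) * hd
        have hsq : (g' 0 0 - g' 1 1) ^ 2 ≤ g' 1 0 ^ 2 := sq_le_sq.2 hk'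
        have habs : g' 1 0 ^ 2 ≤ -(g' 0 1 * g' 1 0) := by
          have hle : |g' 1 0| ≤ |g' 0 1| := sq_le_sq.1 hb
          have hneg : g' 0 1 * g' 1 0 ≤ 0 := by nlinarith
          rw [← abs_of_nonpos hneg, abs_mul, ← sq_abs, sq]
          exact mul_le_mul_of_nonneg_right hle (abs_nonneg _)
        have hc1 : g' 1 0 ^ 2 = 1 := by
          have : 0 < g' 1 0 ^ 2 := by positivity
          nlinarith
        have ht1 : (g' 0 0 + g' 1 1) ^ 2 ≤ 1 := by nlinarith
        -- make the top left entry vanish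
        apply IsSpecial.of_conj (T ^ (-(g' 0 0 * g' 1 0)))
        set g'' := T ^ (-(g' 0 0 * g' 1 0)) * g' * (T ^ (-(g' 0 0 * g' 1 0)))⁻¹ with hg''
        have hco := coe_conj_T_zpow g' (-(g' 0 0 * g' 1 0))
        rw [← hg''] at hco
        have e00 : g'' 0 0 = 0 := by
          have : g'' 0 0 = g' 0 0 + -(g' 0 0 * g' 1 0) * g' 1 0 := by simp [hco]
          rw [this]; linear_combination (-g' 0 0) * hc1
        have e10 : g'' 1 0 = g' 1 0 := by simp [hco]
        have e11 : g'' 1 1 = g' 0 0 + g' 1 1 := by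
          have : g'' 1 1 = g' 1 1 - -(g' 0 0 * g' 1 0) * g' 1 0 := by simp [hco]
          rw [this]; linear_combination (g' 0 0) * hc1
        have e01 : g'' 0 1 = -g' 1 0 := by
          have h' := det_eq g''
          rw [e00, e10] at h'
          linear_combination (-g' 1 0) * h' - (g'' 0 1) * hc1
        have hT : ((T * (U * U) * T⁻¹ : SL(2, ℤ)) : Matrix (Fin 2) (Fin 2) ℤ) =
            !![0, -1; 1, -1] := by
          simp [coe_U, coe_T, SpecialLinearGroup.coe_inv, adjugate_fin_two]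
        have hset : g'' = S ∨ g'' = -S ∨ g'' = U ∨ g'' = -U ∨
            g'' = T * (U * U) * T⁻¹ ∨ g'' = -(T * (U * U) * T⁻¹) := by
          have hlo : -1 ≤ g' 0 0 + g' 1 1 := by nlinarith
          have hhi : g' 0 0 + g' 1 1 ≤ 1 := by nlinarith
          rcases sq_eq_one_iff.1 hc1 with h | h <;> rw [h] at e10 e01 <;>
            interval_cases htt : g' 0 0 + g' 1 1 <;>
            first
            | (left; ext i j; fin_cases i <;> fin_cases j <;>
                simp [e00, e01, e10, e11, coe_S]; done)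
            | (right; left; ext i j; fin_cases i <;> fin_cases j <;>
                simp [e00, e01, e10, e11, coe_S]; done)
            | (right; right; left; ext i j; fin_cases i <;> fin_cases j <;>
                simp [e00, e01, e10, e11, coe_U]; done)
            | (right; right; right; left; ext i j; fin_cases i <;> fin_cases j <;>
                simp [e00, e01, e10, e11, coe_U]; done)
            | (right; right; right; right; left; apply Subtype.ext; rw [hT]; ext i j; fin_cases i <;> fin_cases j <;>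
                simp [e00, e01, e10, e11]; done)
            | (right; right; right; right; right; apply Subtype.ext
               rw [SpecialLinearGroup.coe_neg, hT]; ext i j; fin_cases i <;> fin_cases j <;>
                simp [e00, e01, e10, e11]; done)
        have hS : IsSpecial S := ⟨1, 1, S, Or.inl rfl, Or.inl (by simp)⟩
        have hU : IsSpecial U := ⟨1, 1, U, Or.inr (Or.inl rfl), Or.inl (by simp)⟩
        have hU2 : IsSpecial (U * U) :=
          ⟨1, 2, U, Or.inr (Or.inl rfl), Or.inl (by simp [zpow_ofNat, pow_two])⟩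
        rcases hset with h | h | h | h | h | h <;> rw [h]
        exacts [hS, hS.neg, hU, hU.neg, hU2.conj T, (hU2.conj T).neg]

theorem isSpecial_of_tr_sq_le {g : SL(2, ℤ)} (hg : tr g ^ 2 ≤ 4) : IsSpecial g :=
  isSpecial_aux _ g rfl hg

/-- elliptic elements have order dividing twelve -/
theorem pow_twelve_eq_one_of_tr_sq_lt {g : SL(2, ℤ)} (hg : tr g ^ 2 < 4) : g ^ 12 = 1 := by
  obtain ⟨h, n, s, hs, hg'⟩ := isSpecial_of_tr_sq_le hg.le
  have key : (s ^ n) ^ 12 = 1 := by
    rcases hs with rfl | rfl | rfl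
    · rw [← zpow_natCast, ← zpow_mul, mul_comm, zpow_mul, zpow_natCast,
        show (12 : ℕ) = 4 * 3 from rfl, pow_mul, S_pow_four, one_pow, one_zpow]
    · rw [← zpow_natCast, ← zpow_mul, mul_comm, zpow_mul, zpow_natCast,
        show (12 : ℕ) = 6 * 2 from rfl, pow_mul, U_pow_six, one_pow, one_zpow]
    · exfalso
      rcases hg' with rfl | rfl <;> simp [tr_neg, tr_conj, tr_T_zpow] at hg
  rcases hg' with rfl | rfl
  · rw [conj_pow, key, mul_one, mul_inv_cancel]
  · rw [Even.neg_pow (by decide), conj_pow, key, mul_one, mul_inv_cancel]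

theorem tr_sq_le_of_isSpecial {g : SL(2, ℤ)} (hg : IsSpecial g) : tr g ^ 2 ≤ 4 := by
  obtain ⟨h, n, s, hs, hg⟩ := hg
  have key : tr (s ^ n) ^ 2 ≤ 4 := by
    rcases hs with rfl | rfl | rfl
    · exact tr_S_zpow_sq_le n
    · exact tr_U_zpow_sq_le n
    · rw [tr_T_zpow]; norm_num
  rcases hg with rfl | rfl <;> simp [tr_neg, tr_conj, key]

/-- Parabolic-elliptic homomorphisms are those killing the generators of all stabilisers of
cusps and elliptic points. -/
theorem isParEllHom_iff_forall_special {Γ : Subgroup SL(2, ℤ)} {A : Type*} [AddCommGroup A]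
    {φ : Additive Γ →+ A} :
    IsParEllHom Γ φ ↔ ∀ γ : Γ, IsSpecial (γ : SL(2, ℤ)) → φ (Additive.ofMul γ) = 0 :=
  ⟨fun h γ hγ => h γ (tr_sq_le_of_isSpecial hγ), fun h γ hγ => h γ (isSpecial_of_tr_sq_le hγ)⟩

end Fermat.Agent.ParHom
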