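/-
SL(2, ℤ) maps to every group generated by elements of order two and three:
the image of SL(2, ℤ) in the permutations of the upper half plane is a free product.
-/
import Fermat.Agent.ParHom.Classify
import Mathlib.GroupTheory.CoprodI
import Mathlib.Analysis.Complex.UpperHalfPlane.MoebiusAction
import Mathlib.Data.ZMod.Basic
import Mathlib.LinearAlgebra.Matrix.FixedDetMatrices

set_option autoImplicit false

namespace Fermat.Agent.ParHom

open scoped MatrixGroups
open ModularGroup UpperHalfPlane Monoid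

/-- The hom from a finite cyclic group attached to an element killed by `n`. -/
noncomputable def cycHom {P : Type*} [Group P] {n : ℕ} (σ : P) (h : σ ^ n = 1) :
    Multiplicative (ZMod n) →* P :=
  AddMonoidHom.toMultiplicativeLeft (ZMod.lift n ⟨zmultiplesHom (Additive P) (Additive.ofMul σ), by
    simp [← ofMul_pow, h]⟩)

theorem cycHom_natCast {P : Type*} [Group P] {n : ℕ} (σ : P) (h : σ ^ n = 1) (k : ℕ) :
    cycHom σ h (Multiplicative.ofAdd (k : ZMod n)) = σ ^ k := by
  have h' : ((k : ℤ) : ZMod n) = (k : ZMod n) := Int.cast_natCast k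
  rw [← h']
  simp [cycHom, -Int.cast_natCast]

/-- the two cyclic groups -/
abbrev Cyc (i : Fin 2) : Type := Multiplicative (ZMod (i.val + 2))

/-- the family of homs given by an involution and an element of order three -/
noncomputable def cycFam {P : Type*} [Group P] (σ τ : P) (hσ : σ ^ 2 = 1) (hτ : τ ^ 3 = 1) :
    ∀ i : Fin 2, Cyc i →* P :=
  Fin.cons (α := fun i => Cyc i →* P) (cycHom σ hσ)
    (Fin.cons (α := fun i => Cyc i.succ →* P) (cycHom τ hτ) fun i => i.elim0)

/-- the action of SL(2, ℤ) on the upper half plane -/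
noncomputable def hPerm : SL(2, ℤ) →* Equiv.Perm ℍ :=
  MulAction.toPermHom SL(2, ℤ) ℍ

@[simp] theorem hPerm_apply (g : SL(2, ℤ)) (z : ℍ) : hPerm g z = g • z := rfl

theorem hPerm_neg_one : hPerm (-1) = 1 := by
  ext z
  simp

theorem hPerm_S_sq : hPerm S ^ 2 = 1 := by
  rw [← map_pow, pow_two, S_sq, hPerm_neg_one]

theorem hPerm_U_cube : hPerm U ^ 3 = 1 := by
  rw [← map_pow, show U ^ 3 = U * U * U by simp [pow_succ, mul_assoc], U_cube, hPerm_neg_one]

theorem U_smul_coe (z : ℍ) : ((U • z : ℍ) : ℂ) = -1 / ((z : ℂ) + 1) := by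
  rw [specialLinearGroup_apply]
  simp [coe_U]

theorem U_sq_smul_coe (z : ℍ) : (((U * U) • z : ℍ) : ℂ) = (-(z : ℂ) - 1) / (z : ℂ) := by
  rw [specialLinearGroup_apply]
  simp [coe_U, sub_eq_add_neg]

/-- the ping-pong sets -/
def pingSet : Fin 2 → Set ℍ := ![{z | 0 < z.re}, {z | z.re < 0}]

theorem pingSet_disjoint : Pairwise fun i j => Disjoint (pingSet i) (pingSet j) := by
  intro i j hij
  rw [Set.disjoint_left]
  intro z
  fin_cases i <;> fin_cases j <;> simp [pingSet] at hij ⊢ <;> intro h <;> linarith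

theorem pingSet_nonempty (i : Fin 2) : (pingSet i).Nonempty := by
  fin_cases i
  · exact ⟨⟨1 + Complex.I, by simp⟩, by simp [pingSet]⟩
  · exact ⟨⟨-1 + Complex.I, by simp⟩, by simp [pingSet]⟩

theorem S_maps {z : ℍ} (hz : z.re < 0) : 0 < (S • z).re := by
  rw [modular_S_smul]
  show 0 < ((-(z : ℂ))⁻¹).re
  rw [Complex.inv_re]
  refine div_pos ?_ (Complex.normSq_pos.2 (neg_ne_zero.2 z.ne_zero))
  simpa using hz

theorem U_maps {z : ℍ} (hz : 0 < z.re) : (U • z).re < 0 := by
  rw [← coe_re, U_smul_coe, Complex.div_re]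
  simp
  refine div_neg_of_neg_of_pos (by linarith) (Complex.normSq_pos.2 fun h => ?_)
  have := congrArg Complex.re h
  simp at this
  linarith

theorem U_sq_maps {z : ℍ} (hz : 0 < z.re) : ((U * U) • z).re < 0 := by
  rw [← coe_re, U_sq_smul_coe, sub_div, neg_div, div_self z.ne_zero]
  simp [Complex.inv_re]
  have : 0 < z.re / Complex.normSq (z : ℂ) := div_pos hz (Complex.normSq_pos.2 z.ne_zero)
  linarith

/-- the comparison map from the free product -/
noncomputable def freeToPerm : CoprodI Cyc →* Equiv.Perm ℍ :=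
  CoprodI.lift (cycFam (hPerm S) (hPerm U) hPerm_S_sq hPerm_U_cube)

theorem freeToPerm_injective : Function.Injective freeToPerm := by
  refine CoprodI.lift_injective_of_ping_pong _ (Or.inr ⟨1, ?_⟩) pingSet pingSet_nonempty
    pingSet_disjoint ?_
  · simp [Cyc]
  · intro i j hij h hne
    fin_cases i <;> fin_cases j <;> simp at hij ⊢
    · have hk1 : h = Multiplicative.ofAdd ((1 : ℕ) : ZMod 2) := by
        revert hne; revert h; decide
      rintro _ ⟨z, hz, rfl⟩
      rw [hk1]
      have e : (cycFam (hPerm S) (hPerm U) hPerm_S_sq hPerm_U_cube 0)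
          (Multiplicative.ofAdd ((1 : ℕ) : ZMod 2)) = hPerm S := by
        exact (cycHom_natCast _ hPerm_S_sq 1).trans (pow_one _)
      show (_ : Equiv.Perm ℍ) z ∈ _
      erw [e]
      exact S_maps hz
    · have hk1 : h = Multiplicative.ofAdd ((1 : ℕ) : ZMod 3) ∨
          h = Multiplicative.ofAdd ((2 : ℕ) : ZMod 3) := by
        revert hne; revert h; decide
      rintro _ ⟨z, hz, rfl⟩
      rcases hk1 with rfl | rfl
      · have e : (cycFam (hPerm S) (hPerm U) hPerm_S_sq hPerm_U_cube 1)
            (Multiplicative.ofAdd ((1 : ℕ) : ZMod 3)) = hPerm U := by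
          exact (cycHom_natCast _ hPerm_U_cube 1).trans (pow_one _)
        show (_ : Equiv.Perm ℍ) z ∈ _
        erw [e]
        exact U_maps hz
      · have e : (cycFam (hPerm S) (hPerm U) hPerm_S_sq hPerm_U_cube 1)
            (Multiplicative.ofAdd ((2 : ℕ) : ZMod 3)) = hPerm (U * U) := by
          exact (cycHom_natCast _ hPerm_U_cube 2).trans (by rw [map_mul, pow_two])
        show (_ : Equiv.Perm ℍ) z ∈ _
        erw [e]
        exact U_sq_maps hz

theorem T_eq : T = S⁻¹ * U := by
  simp [U]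

theorem hPerm_mem_range (g : SL(2, ℤ)) : hPerm g ∈ freeToPerm.range := by
  have hS : hPerm S ∈ freeToPerm.range :=
    ⟨CoprodI.of (i := 0) (Multiplicative.ofAdd ((1 : ℕ) : ZMod 2)), by
      rw [freeToPerm, CoprodI.lift_of]
      exact (cycHom_natCast _ hPerm_S_sq 1).trans (pow_one _)⟩
  have hU : hPerm U ∈ freeToPerm.range :=
    ⟨CoprodI.of (i := 1) (Multiplicative.ofAdd ((1 : ℕ) : ZMod 3)), by
      rw [freeToPerm, CoprodI.lift_of]
      exact (cycHom_natCast _ hPerm_U_cube 1).trans (pow_one _)⟩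
  have hg : g ∈ Subgroup.closure ({S, T} : Set SL(2, ℤ)) := by
    rw [SpecialLinearGroup.SL2Z_generators]; trivial
  have hle : Subgroup.closure ({S, T} : Set SL(2, ℤ)) ≤ freeToPerm.range.comap hPerm := by
    rw [Subgroup.closure_le]
    rintro x (rfl | rfl)
    · exact hS
    · show hPerm T ∈ freeToPerm.range
      rw [T_eq, map_mul, map_inv]
      exact mul_mem (inv_mem hS) hU
  exact hle hg

/-- Universal property: an involution and an element of order three define a homomorphism of
SL(2, ℤ). -/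
theorem exists_hom_SL2Z {P : Type*} [Group P] (σ τ : P) (hσ : σ ^ 2 = 1) (hτ : τ ^ 3 = 1) :
    ∃ Φ : SL(2, ℤ) →* P, Φ S = σ ∧ Φ U = τ := by
  set e := MonoidHom.ofInjective freeToPerm_injective
  refine ⟨(CoprodI.lift (cycFam σ τ hσ hτ)).comp
    (e.symm.toMonoidHom.comp (hPerm.codRestrict _ hPerm_mem_range)), ?_, ?_⟩
  · have h1 : e (CoprodI.of (i := 0) (Multiplicative.ofAdd ((1 : ℕ) : ZMod 2))) =
        hPerm.codRestrict _ hPerm_mem_range S := by
      apply Subtype.ext
      show freeToPerm _ = hPerm S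
      rw [freeToPerm, CoprodI.lift_of]
      exact (cycHom_natCast _ hPerm_S_sq 1).trans (pow_one _)
    show CoprodI.lift _ (e.symm (hPerm.codRestrict _ hPerm_mem_range S)) = σ
    rw [← h1, MulEquiv.symm_apply_apply, CoprodI.lift_of]
    exact (cycHom_natCast _ hσ 1).trans (pow_one _)
  · have h1 : e (CoprodI.of (i := 1) (Multiplicative.ofAdd ((1 : ℕ) : ZMod 3))) =
        hPerm.codRestrict _ hPerm_mem_range U := by
      apply Subtype.ext
      show freeToPerm _ = hPerm U
      rw [freeToPerm, CoprodI.lift_of]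
      exact (cycHom_natCast _ hPerm_U_cube 1).trans (pow_one _)
    show CoprodI.lift _ (e.symm (hPerm.codRestrict _ hPerm_mem_range U)) = τ
    rw [← h1, MulEquiv.symm_apply_apply, CoprodI.lift_of]
    exact (cycHom_natCast _ hτ 1).trans (pow_one _)

end Fermat.Agent.ParHom
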