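/-
Cocycles on the cosets of a finite index subgroup of SL(2, ℤ) and their relation to
parabolic-elliptic homomorphisms.
-/
import Fermat.Agent.ParHom.Presentation
import Fermat.Agent.ParHom.Delta

set_option autoImplicit false
set_option linter.unusedSectionVars false

namespace Fermat.Agent.ParHom

open scoped MatrixGroups
open ModularGroup Finset

variable (Γ : Subgroup SL(2, ℤ))

/-- the coset space -/
abbrev Cosets : Type := SL(2, ℤ) ⧸ Γ

/-- the base coset -/
def base : Cosets Γ := ((1 : SL(2, ℤ)) : Cosets Γ)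

variable {Γ}

theorem smul_base (γ : Γ) : (γ : SL(2, ℤ)) • base Γ = base Γ := by
  show ((γ * 1 : SL(2, ℤ)) : Cosets Γ) = _
  rw [mul_one, base, QuotientGroup.eq, mul_one]
  exact inv_mem γ.2

theorem neg_one_smul_coset (hneg : -1 ∈ Γ) (x : Cosets Γ) : (-1 : SL(2, ℤ)) • x = x := by
  induction x using QuotientGroup.induction_on with
  | _ g =>
    show ((-1 * g : SL(2, ℤ)) : Cosets Γ) = (g : Cosets Γ)
    rw [QuotientGroup.eq]
    simpa using hneg

variable (Γ) (R : Type*) [CommRing R] (A : Type*) [AddCommGroup A] [Module R A]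

/-- cocycles of the action groupoid -/
def cocycles : Submodule R (SL(2, ℤ) → Cosets Γ → A) where
  carrier := {c | ∀ g h x, c (g * h) x = c g (h • x) + c h x}
  zero_mem' := by intro g h x; simp
  add_mem' := by
    intro c d hc hd g h x
    simp only [Pi.add_apply, hc g h x, hd g h x]; abel
  smul_mem' := by
    intro r c hc g h x
    simp only [Pi.smul_apply, hc g h x, smul_add]

variable {Γ R A}

namespace Cocycle

variable {c : SL(2, ℤ) → Cosets Γ → A} (hc : c ∈ cocycles Γ R A)

include hc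

theorem map_mul (g h : SL(2, ℤ)) (x : Cosets Γ) : c (g * h) x = c g (h • x) + c h x := hc g h x

theorem map_one (x : Cosets Γ) : c 1 x = 0 := by
  have := hc 1 1 x
  simp at this
  exact this

theorem map_inv (g : SL(2, ℤ)) (x : Cosets Γ) : c g⁻¹ x = -c g (g⁻¹ • x) := by
  have := hc g g⁻¹ x
  rw [mul_inv_cancel, map_one hc] at this
  rw [eq_neg_iff_add_eq_zero, add_comm]
  exact this.symm

theorem map_pow (g : SL(2, ℤ)) (n : ℕ) (x : Cosets Γ) :
    c (g ^ n) x = ∑ i ∈ range n, c g (g ^ i • x) := by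
  induction n with
  | zero => simp [map_one hc]
  | succ n ih => rw [pow_succ', hc, ih, sum_range_succ, add_comm]

theorem eq_zero_of_gen (hS : c S = 0) (hU : c U = 0) : c = 0 := by
  let M : Subgroup SL(2, ℤ) :=
    { carrier := {g | c g = 0}
      one_mem' := funext fun x => map_one hc x
      mul_mem' := fun {g h} hg hh => funext fun x => by
        simp only [Set.mem_ofPred_eq] at hg hh
        simp [hc g h x, hg, hh]
      inv_mem' := fun {g} hg => funext fun x => by
        simp only [Set.mem_ofPred_eq] at hg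
        simp [map_inv hc, hg] }
  have hle : Subgroup.closure ({S, T} : Set SL(2, ℤ)) ≤ M := by
    rw [Subgroup.closure_le]
    rintro x (rfl | rfl)
    · exact hS
    · rw [T_eq]
      exact mul_mem (inv_mem (show S ∈ M from hS)) (show U ∈ M from hU)
  funext g
  exact hle (by rw [SpecialLinearGroup.SL2Z_generators]; trivial)

end Cocycle

/-- the permutation `(x, v) ↦ (g x, v + a x)` -/
def shear (g : SL(2, ℤ)) (a : Cosets Γ → A) : Equiv.Perm (Cosets Γ × A) where
  toFun p := (g • p.1, p.2 + a p.1)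
  invFun p := (g⁻¹ • p.1, p.2 - a (g⁻¹ • p.1))
  left_inv p := by simp
  right_inv p := by simp

@[simp] theorem shear_apply (g : SL(2, ℤ)) (a : Cosets Γ → A) (p : Cosets Γ × A) :
    shear g a p = (g • p.1, p.2 + a p.1) := rfl

theorem shear_pow (g : SL(2, ℤ)) (a : Cosets Γ → A) (n : ℕ) (p : Cosets Γ × A) :
    (shear g a ^ n) p = (g ^ n • p.1, p.2 + ∑ i ∈ range n, a (g ^ i • p.1)) := by
  induction n with
  | zero => simp
  | succ n ih =>
    rw [pow_succ', Equiv.Perm.mul_apply, ih, shear_apply, sum_range_succ, add_assoc, pow_succ',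
      mul_smul]

theorem exists_cocycle (hneg : -1 ∈ Γ) (a b : Cosets Γ → A)
    (ha : ∀ x, a (S • x) + a x = 0)
    (hb : ∀ x, b x + b (U • x) + b (U • U • x) = 0) :
    ∃ c ∈ cocycles Γ R A, c S = a ∧ c U = b := by
  have hσ : shear S a ^ 2 = 1 := by
    refine Equiv.ext fun p => ?_
    rw [shear_pow, pow_two, S_sq, neg_one_smul_coset hneg]
    simp [Finset.sum_range_succ, add_comm (a p.1), ha]
  have hτ : shear U b ^ 3 = 1 := by
    refine Equiv.ext fun p => ?_
    rw [shear_pow, show U ^ 3 = U * U * U by simp [pow_succ, mul_assoc], U_cube,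
      neg_one_smul_coset hneg]
    simp [Finset.sum_range_succ, pow_two, mul_smul, hb]
  obtain ⟨Φ, hS, hU⟩ := exists_hom_SL2Z _ _ hσ hτ
  let M : Subgroup SL(2, ℤ) :=
    { carrier := {g | ∀ x v, Φ g (x, v) = (g • x, v + (Φ g (x, 0)).2)}
      one_mem' := by intro x v; simp
      mul_mem' := by
        intro g h hg hh x v
        simp only [map_mul, Equiv.Perm.mul_apply]
        rw [hh x v, hh x 0, hg, hg (h • x) (0 + _)]
        simp [mul_smul, add_comm, add_left_comm]
      inv_mem' := by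
        intro g hg x v
        have h1 : ∀ w, Φ g⁻¹ (x, w) = (g⁻¹ • x, w - (Φ g (g⁻¹ • x, 0)).2) := by
          intro w
          rw [map_inv, Equiv.Perm.inv_def, Equiv.symm_apply_eq, hg]
          simp
        rw [h1 v, h1 0]
        simp [sub_eq_add_neg] }
  have hall : ∀ g, g ∈ M := by
    have hSM : S ∈ M := by intro x v; simp [hS]
    have hUM : U ∈ M := by intro x v; simp [hU]
    have hle : Subgroup.closure ({S, T} : Set SL(2, ℤ)) ≤ M := by
      rw [Subgroup.closure_le]
      rintro x (rfl | rfl)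
      · exact hSM
      · rw [T_eq]; exact mul_mem (inv_mem hSM) hUM
    exact fun g => hle (by rw [SpecialLinearGroup.SL2Z_generators]; trivial)
  refine ⟨fun g x => (Φ g (x, 0)).2, ?_, ?_, ?_⟩
  · intro g h x
    simp only [map_mul, Equiv.Perm.mul_apply]
    rw [hall h x 0, hall g]
    simp [add_comm]
  · funext x; simp [hS]
  · funext x; simp [hU]

variable (Γ R A)

/-- cocycles with no periods around elliptic points and cusps -/
def parCocycles : Submodule R (SL(2, ℤ) → Cosets Γ → A) :=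
  cocycles Γ R A ⊓
    ((LinearMap.range (delta R A S)).comap (LinearMap.proj S) ⊓
      (LinearMap.range (delta R A U)).comap (LinearMap.proj U) ⊓
      (LinearMap.range (delta R A T)).comap (LinearMap.proj T))

variable {Γ R A}

theorem mem_parCocycles {c : SL(2, ℤ) → Cosets Γ → A} :
    c ∈ parCocycles Γ R A ↔ c ∈ cocycles Γ R A ∧ c S ∈ LinearMap.range (delta R A S) ∧
      c U ∈ LinearMap.range (delta R A U) ∧ c T ∈ LinearMap.range (delta R A T) := by
  simp [parCocycles, and_assoc]

variable (Γ R A)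

/-- coboundaries -/
def coboundary : (Cosets Γ → A) →ₗ[R] (SL(2, ℤ) → Cosets Γ → A) :=
  LinearMap.pi fun g => delta R A g

variable {Γ R A}

theorem coboundary_mem (u : Cosets Γ → A) : coboundary Γ R A u ∈ parCocycles Γ R A := by
  refine mem_parCocycles.2 ⟨?_, ⟨u, rfl⟩, ⟨u, rfl⟩, ⟨u, rfl⟩⟩
  intro g h x
  simp [coboundary, mul_smul]

variable (Γ R A)

/-- restriction of a cocycle to the subgroup -/
def restrict : parCocycles Γ R A →ₗ[R] (Additive Γ →+ A) where
  toFun c :=
    { toFun := fun γ => c.1 ((Additive.toMul γ : Γ) : SL(2, ℤ)) (base Γ)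
      map_zero' := Cocycle.map_one c.2.1 _
      map_add' := fun γ δ => by
        show c.1 (((Additive.toMul γ * Additive.toMul δ : Γ)) : SL(2, ℤ)) (base Γ) = _
        rw [Subgroup.coe_mul, Cocycle.map_mul c.2.1, smul_base] }
  map_add' _ _ := rfl
  map_smul' _ _ := rfl

variable {Γ R A}

@[simp] theorem restrict_apply (c : parCocycles Γ R A) (γ : Γ) :
    restrict Γ R A c (Additive.ofMul γ) = c.1 (γ : SL(2, ℤ)) (base Γ) := rfl

variable [Γ.FiniteIndex]

theorem map_conj_pow_eq_zero {c : SL(2, ℤ) → Cosets Γ → A} (hc : c ∈ cocycles Γ R A)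
    {s : SL(2, ℤ)} (hs : c s ∈ LinearMap.range (delta R A s)) (h : SL(2, ℤ)) (n : ℕ)
    (hfix : (h * s ^ n * h⁻¹) • base Γ = base Γ) : c (h * s ^ n * h⁻¹) (base Γ) = 0 := by
  set y := h⁻¹ • base Γ with hy
  have hy' : s ^ n • y = y := by
    rw [hy, eq_inv_smul_iff, ← mul_smul, ← mul_smul]; exact hfix
  rw [Cocycle.map_mul hc, Cocycle.map_mul hc, ← hy, Cocycle.map_pow hc,
    (mem_range_delta_iff s _).1 hs y n hy', hy', Cocycle.map_inv hc, ← hy]
  simp

theorem restrict_mem (hneg : -1 ∈ Γ) (c : parCocycles Γ R A) :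
    IsParEllHom Γ (restrict Γ R A c) := by
  obtain ⟨hc, hS, hU, hT⟩ := mem_parCocycles.1 c.2
  have hneg0 : ∀ x, c.1 (-1) x = 0 := by
    intro x
    rw [← S_sq, Cocycle.map_mul hc]
    have := (mem_range_delta_iff S _).1 hS x 2
      (by rw [pow_two, S_sq, neg_one_smul_coset hneg])
    simp [Finset.sum_range_succ] at this
    rw [add_comm]; exact this
  have main : ∀ (h s : SL(2, ℤ)) (n : ℤ), (s = S ∨ s = U ∨ s = T) →
      h * s ^ n * h⁻¹ ∈ Γ → c.1 (h * s ^ n * h⁻¹) (base Γ) = 0 := by
    intro h s n hs hmem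
    have hr : c.1 s ∈ LinearMap.range (delta R A s) := by rcases hs with rfl | rfl | rfl <;> assumption
    rcases Int.eq_nat_or_neg n with ⟨m, rfl | rfl⟩
    · rw [zpow_natCast] at hmem ⊢
      exact map_conj_pow_eq_zero hc hr h m (smul_base ⟨_, hmem⟩)
    · have e : h * s ^ (-(m : ℤ)) * h⁻¹ = (h * s ^ m * h⁻¹)⁻¹ := by simp [mul_assoc]
      rw [e, inv_mem_iff] at hmem
      rw [e, Cocycle.map_inv hc, show (h * s ^ m * h⁻¹)⁻¹ • base Γ = base Γ from
        smul_base ⟨_, inv_mem hmem⟩, map_conj_pow_eq_zero hc hr h m (smul_base ⟨_, hmem⟩), neg_zero]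
  intro γ hγ
  obtain ⟨h, n, s, hs, hg | hg⟩ := isSpecial_of_tr_sq_le hγ
  · rw [restrict_apply, hg]
    exact main h s n hs (hg ▸ γ.2)
  · rw [restrict_apply, hg, ← neg_one_mul, Cocycle.map_mul hc, hneg0, zero_add]
    refine main h s n hs ?_
    have := mul_mem hneg γ.2
    rwa [hg, neg_one_mul, neg_neg] at this

theorem exists_parCocycle {φ : Additive Γ →+ A} (hφ : IsParEllHom Γ φ) :
    ∃ c : parCocycles Γ R A, restrict Γ R A c = φ := by
  have hmem : ∀ g (x : Cosets Γ), ((g • x).out)⁻¹ * g * x.out ∈ Γ := by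
    intro g x
    rw [mul_assoc, ← QuotientGroup.eq, QuotientGroup.out_eq']
    conv_lhs => rw [← QuotientGroup.out_eq' x]
    rfl
  let j : SL(2, ℤ) → Cosets Γ → Γ := fun g x => ⟨_, hmem g x⟩
  let c : SL(2, ℤ) → Cosets Γ → A := fun g x => φ (Additive.ofMul (j g x))
  have hc : c ∈ cocycles Γ R A := by
    intro g h x
    have : j (g * h) x = j g (h • x) * j h x := by
      apply Subtype.ext
      simp [j, mul_smul, mul_assoc]
    simp only [c, this, ofMul_mul, map_add]
  have hr : ∀ s : SL(2, ℤ), (∀ n : ℕ, tr (s ^ n) ^ 2 ≤ 4) →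
      c s ∈ LinearMap.range (delta R A s) := by
    intro s hs
    rw [mem_range_delta_iff]
    intro x n hn
    rw [← Cocycle.map_pow hc]
    refine hφ _ ?_
    show tr ((s ^ n • x).out⁻¹ * s ^ n * x.out) ^ 2 ≤ 4
    rw [hn]
    have := tr_conj x.out⁻¹ (s ^ n)
    rw [inv_inv] at this
    rw [this]; exact hs n
  refine ⟨⟨c, mem_parCocycles.2 ⟨hc, hr S fun n => ?_, hr U fun n => ?_, hr T fun n => ?_⟩⟩, ?_⟩
  · rw [← zpow_natCast]; exact tr_S_zpow_sq_le _
  · rw [← zpow_natCast]; exact tr_U_zpow_sq_le _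
  · rw [← zpow_natCast, tr_T_zpow]; norm_num
  · refine AddMonoidHom.ext fun γ => ?_
    obtain ⟨γ, rfl⟩ := Additive.ofMul.surjective γ
    rw [restrict_apply]
    have h0 : (base Γ).out ∈ Γ := by
      have h := QuotientGroup.out_eq' (base Γ)
      rw [base, QuotientGroup.eq, mul_one, inv_mem_iff] at h
      exact h
    have : j γ (base Γ) = (⟨_, h0⟩ : Γ)⁻¹ * γ * ⟨_, h0⟩ := by
      apply Subtype.ext
      simp [j, smul_base]
    simp only [c, this, ofMul_mul, ofMul_inv, map_add, map_neg]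
    abel

theorem restrict_eq_zero_iff (c : parCocycles Γ R A) :
    restrict Γ R A c = 0 ↔ ∃ u, coboundary Γ R A u = c.1 := by
  constructor
  · intro h
    obtain ⟨hc, -⟩ := mem_parCocycles.1 c.2
    refine ⟨fun x => c.1 x.out (base Γ), ?_⟩
    funext g x
    have hout : ∀ y : Cosets Γ, y.out • base Γ = y := by
      intro y
      show ((y.out * 1 : SL(2, ℤ)) : Cosets Γ) = y
      rw [mul_one, QuotientGroup.out_eq']
    have hmem : ((g • x).out)⁻¹ * g * x.out ∈ Γ := by
      rw [mul_assoc, ← QuotientGroup.eq, QuotientGroup.out_eq']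
      conv_lhs => rw [← QuotientGroup.out_eq' x]
      rfl
    have h0 := DFunLike.congr_fun h (Additive.ofMul (⟨_, hmem⟩ : Γ))
    rw [restrict_apply] at h0
    simp only at h0
    rw [Cocycle.map_mul hc, Cocycle.map_mul hc, hout, Cocycle.map_inv hc] at h0
    have hfix : ((g • x).out)⁻¹ • g • x = base Γ := by
      rw [inv_smul_eq_iff, hout]
    rw [hfix, AddMonoidHom.zero_apply] at h0
    simp only [coboundary, LinearMap.pi_apply, delta_apply]
    rw [← sub_eq_zero, ← neg_eq_zero, ← h0]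
    abel
  · rintro ⟨u, hu⟩
    refine AddMonoidHom.ext fun γ => ?_
    obtain ⟨γ, rfl⟩ := Additive.ofMul.surjective γ
    rw [restrict_apply, ← hu]
    simp [coboundary, smul_base]

end Fermat.Agent.ParHom
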