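/-
The dimension of parabolic-elliptic homomorphisms with values in a field.
-/
import Fermat.Agent.ParHom.Cocycle

set_option autoImplicit false

namespace Fermat.Agent.ParHom

open scoped MatrixGroups
open ModularGroup Finset Module

variable {Γ : Subgroup SL(2, ℤ)} [Γ.FiniteIndex] (K : Type*) [Field K]

noncomputable local instance : Fintype (Cosets Γ) := Fintype.ofFinite _

/-- functions with sum zero -/
noncomputable def sumFunctional (Γ : Subgroup SL(2, ℤ)) [Γ.FiniteIndex] :
    (Cosets Γ → K) →ₗ[K] K where
  toFun v := ∑ x, v x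
  map_add' u v := by simp [sum_add_distrib]
  map_smul' r u := by simp [mul_sum]

theorem sumFunctional_delta (g : SL(2, ℤ)) (u : Cosets Γ → K) :
    sumFunctional K Γ (delta K K g u) = 0 := by
  simp only [sumFunctional, LinearMap.coe_mk, AddHom.coe_mk, delta_apply, sum_sub_distrib]
  rw [sub_eq_zero]
  exact Equiv.sum_comp (MulAction.toPerm g) u

/-- `(a, b) ↦ b + a ∘ U` -/
def tMap (Γ : Subgroup SL(2, ℤ)) :
    (Cosets Γ → K) × (Cosets Γ → K) →ₗ[K] (Cosets Γ → K) where
  toFun p x := p.2 x + p.1 (U • x)
  map_add' p q := by ext x; simp only [Prod.fst_add, Prod.snd_add, Pi.add_apply]; ring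
  map_smul' r p := by ext x; simp [mul_add]

/-- the source of `tMap` -/
def pairs (Γ : Subgroup SL(2, ℤ)) : Submodule K ((Cosets Γ → K) × (Cosets Γ → K)) :=
  (LinearMap.range (delta K K S)).prod (LinearMap.range (delta K K U))

variable {K}

theorem cocycle_T (hneg : -1 ∈ Γ) {c : SL(2, ℤ) → Cosets Γ → K} (hc : c ∈ cocycles Γ K K)
    (hS : c S ∈ LinearMap.range (delta K K S)) :
    c T = tMap K Γ (c S, c U) := by
  funext x
  have hSS : ∀ y : Cosets Γ, c S (S • y) + c S y = 0 := by
    intro y
    have := (mem_range_delta_iff S _).1 hS y 2 (by rw [pow_two, S_sq, neg_one_smul_coset hneg])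
    simpa [Finset.sum_range_succ, add_comm] using this
  have hSinv : S⁻¹ • (U • x) = S • (U • x) := by
    rw [inv_smul_eq_iff, ← mul_smul S S, S_sq, neg_one_smul_coset hneg]
  rw [T_eq, Cocycle.map_mul hc, Cocycle.map_inv hc, hSinv]
  show -c S (S • U • x) + c U x = c U x + c S (U • x)
  linear_combination -(hSS (U • x))

theorem finrank_pairs_comap_add (hneg : -1 ∈ Γ) :
    finrank K ↥(pairs K Γ ⊓ (LinearMap.range (delta K K T)).comap (tMap K Γ)) +
      (orbitCount Γ S + orbitCount Γ U + orbitCount Γ T) = 2 * Γ.index + 1 := by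
  classical
  set RS := LinearMap.range (delta (X := Cosets Γ) K K S)
  set RU := LinearMap.range (delta (X := Cosets Γ) K K U)
  set RT := LinearMap.range (delta (X := Cosets Γ) K K T)
  set W : Submodule K (Cosets Γ → K) := (pairs K Γ).map (tMap K Γ) ⊔ RT with hW
  -- `W` is the space of functions of sum zero
  have hWker : W = LinearMap.ker (sumFunctional K Γ) := by
    apply le_antisymm
    · refine sup_le ?_ ?_
      · rintro _ ⟨⟨a, b⟩, ⟨⟨u, rfl⟩, ⟨v, rfl⟩⟩, rfl⟩
        rw [LinearMap.mem_ker]
        have : tMap K Γ (delta K K S u, delta K K U v) =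
            delta K K U v + (delta K K (S * U) u - delta K K U u) := by
          funext x; simp [tMap, mul_smul]
        simp [this, sumFunctional_delta]
      · rintro _ ⟨u, rfl⟩
        exact sumFunctional_delta K T u
    · let M : Subgroup SL(2, ℤ) :=
        { carrier := {g | ∀ u, delta K K g u ∈ W}
          one_mem' := fun u => by
            have : delta K K (1 : SL(2, ℤ)) u = (0 : Cosets Γ → K) := by funext x; simp
            rw [this]; exact zero_mem _
          mul_mem' := fun {g h} hg hh u => by
            have : delta K K (g * h) u =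
                delta K K h (fun x : Cosets Γ => u (g • x)) + delta K K g u := by
              funext x; simp [mul_smul]
            rw [this]; exact add_mem (hh _) (hg _)
          inv_mem' := fun {g} hg u => by
            have : delta K K g⁻¹ u = -(delta K K g (fun x : Cosets Γ => u (g⁻¹ • x))) := by
              funext x; simp
            rw [this]; exact neg_mem (hg _) }
      have hU : U ∈ M := fun u =>
        Submodule.mem_sup_left ⟨(0, delta K K U u), ⟨zero_mem _, u, rfl⟩, by funext x; simp [tMap]⟩
      have hT : T ∈ M := fun u => Submodule.mem_sup_right ⟨u, rfl⟩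
      have hS : S ∈ M := by
        rw [show S = T⁻¹⁻¹ * (T⁻¹ * S) by group, show T⁻¹ * S = U⁻¹ * (S * S) by
          rw [show U = S * T from rfl]; group]
        refine mul_mem (inv_mem (inv_mem hT)) (mul_mem (inv_mem hU) ?_)
        intro u
        have : delta K K (S * S) u = (0 : Cosets Γ → K) := by
          funext x; simp [S_sq, neg_one_smul_coset hneg]
        rw [this]; exact zero_mem _
      have hall : ∀ g, g ∈ M := by
        have hle : Subgroup.closure ({S, T} : Set SL(2, ℤ)) ≤ M := by
          rw [Subgroup.closure_le]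
          rintro x (rfl | rfl)
          exacts [hS, hT]
        exact fun g => hle (by rw [SpecialLinearGroup.SL2Z_generators]; trivial)
      intro v hv
      have hv0 : ∑ x, v x = 0 := hv
      have hv' : v = ∑ x, v x • (Pi.single x 1 - Pi.single (base Γ) 1 : Cosets Γ → K) := by
        simp only [smul_sub, sum_sub_distrib, ← sum_smul, hv0, zero_smul, sub_zero]
        funext y
        simp [Pi.single_apply]
      rw [hv']
      refine sum_mem fun x _ => Submodule.smul_mem _ _ ?_
      obtain ⟨g, hg⟩ : ∃ g : SL(2, ℤ), g • x = base Γ := MulAction.exists_smul_eq _ x _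
      have hd := hall g (Pi.single (base Γ) 1 : Cosets Γ → K)
      have : delta K K g (Pi.single (base Γ) 1 : Cosets Γ → K) =
          Pi.single x 1 - Pi.single (base Γ) 1 := by
        funext y
        have hiff : g • y = base Γ ↔ y = x :=
          ⟨fun h => smul_left_cancel g (h.trans hg.symm), fun h => h ▸ hg⟩
        simp [Pi.single_apply, hiff]
      rw [this] at hd; exact hd
  have hsurj : LinearMap.range (sumFunctional K Γ) = ⊤ := by
    refine LinearMap.range_eq_top.2 fun r => ⟨Pi.single (base Γ) r, ?_⟩
    simp [sumFunctional]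
  have hdimW : finrank K W + 1 = Nat.card (Cosets Γ) := by
    have h := LinearMap.finrank_range_add_finrank_ker (sumFunctional K Γ)
    rw [hsurj, finrank_top, finrank_self, finrank_fintype_fun_eq_card, ← hWker] at h
    rw [Nat.card_eq_fintype_card, ← h, add_comm]
  -- the image modulo `RT`
  have hker : finrank K ↥(W.map RT.mkQ) + finrank K RT = finrank K W := by
    have h := LinearMap.finrank_range_add_finrank_ker (RT.mkQ.domRestrict W)
    rw [LinearMap.range_domRestrict, LinearMap.ker_domRestrict, Submodule.ker_mkQ] at h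
    rw [← (Submodule.comapSubtypeEquivOfLe (le_sup_right : RT ≤ W)).finrank_eq]
    exact h
  have hmap : W.map RT.mkQ = ((pairs K Γ).map (tMap K Γ)).map RT.mkQ := by
    rw [hW, Submodule.map_sup]
    simp
  have hsplit := LinearMap.finrank_range_add_finrank_ker
    ((RT.mkQ ∘ₗ tMap K Γ).domRestrict (pairs K Γ))
  rw [LinearMap.range_domRestrict, Submodule.map_comp, ← hmap, LinearMap.ker_domRestrict,
    LinearMap.ker_comp, Submodule.ker_mkQ] at hsplit
  have hsplit' : finrank K ↥(pairs K Γ ⊓ RT.comap (tMap K Γ)) =
      finrank K ↥(Submodule.comap (pairs K Γ).subtype (RT.comap (tMap K Γ))) := by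
    rw [← Submodule.finrank_map_subtype_eq, Submodule.map_comap_subtype]
  have hpairs : finrank K (pairs K Γ) = finrank K RS + finrank K RU := by
    rw [← Module.finrank_prod]
    let e : pairs K Γ ≃ₗ[K] RS × RU :=
      { toFun := fun p => (⟨p.1.1, p.2.1⟩, ⟨p.1.2, p.2.2⟩)
        map_add' := fun _ _ => rfl
        map_smul' := fun _ _ => rfl
        invFun := fun p => ⟨(p.1.1, p.2.1), p.1.2, p.2.2⟩
        left_inv := fun _ => rfl
        right_inv := fun _ => rfl }
    exact e.finrank_eq
  have hS : finrank K RS + orbitCount Γ S = Nat.card (Cosets Γ) := finrank_range_delta_add K S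
  have hU : finrank K RU + orbitCount Γ U = Nat.card (Cosets Γ) := finrank_range_delta_add K U
  have hT : finrank K RT + orbitCount Γ T = Nat.card (Cosets Γ) := finrank_range_delta_add K T
  have hidx : Γ.index = Nat.card (Cosets Γ) := rfl
  rw [hsplit']
  omega

theorem finrank_parCocycles_add (hneg : -1 ∈ Γ) :
    finrank K (parCocycles Γ K K) + (orbitCount Γ S + orbitCount Γ U + orbitCount Γ T) =
      2 * Γ.index + 1 := by
  rw [← finrank_pairs_comap_add (K := K) hneg]
  congr 1
  let ev : parCocycles Γ K K →ₗ[K] (Cosets Γ → K) × (Cosets Γ → K) :=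
    ((LinearMap.proj S).prod (LinearMap.proj U)) ∘ₗ (parCocycles Γ K K).subtype
  have hinj : Function.Injective ev := by
    rw [← LinearMap.ker_eq_bot, LinearMap.ker_eq_bot']
    intro c hc
    exact Subtype.ext (Cocycle.eq_zero_of_gen c.2.1 (congrArg Prod.fst hc) (congrArg Prod.snd hc))
  rw [← LinearMap.finrank_range_of_inj hinj]
  suffices h : LinearMap.range ev =
      pairs K Γ ⊓ (LinearMap.range (delta K K T)).comap (tMap K Γ) by rw [h]
  ext ⟨a, b⟩
  constructor
  · rintro ⟨c, hc⟩
    obtain ⟨rfl, rfl⟩ : c.1 S = a ∧ c.1 U = b := ⟨congrArg Prod.fst hc, congrArg Prod.snd hc⟩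
    obtain ⟨hcc, hS, hU, hT⟩ := mem_parCocycles.1 c.2
    refine ⟨⟨hS, hU⟩, ?_⟩
    show tMap K Γ (c.1 S, c.1 U) ∈ LinearMap.range (delta K K T)
    rw [← cocycle_T hneg hcc hS]; exact hT
  · rintro ⟨⟨ha, hb⟩, hT⟩
    have hSS : ∀ x, a (S • x) + a x = 0 := by
      intro x
      have := (mem_range_delta_iff S a).1 ha x 2 (by rw [pow_two, S_sq, neg_one_smul_coset hneg])
      simpa [Finset.sum_range_succ, add_comm] using this
    have hUUU : ∀ x, b x + b (U • x) + b (U • U • x) = 0 := by
      intro x
      have := (mem_range_delta_iff U b).1 hb x 3 (by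
        rw [show U ^ 3 = U * U * U by simp [pow_succ, mul_assoc], U_cube, neg_one_smul_coset hneg])
      simpa [Finset.sum_range_succ, pow_two, mul_smul] using this
    obtain ⟨c, hc, rfl, rfl⟩ := exists_cocycle (R := K) hneg a b hSS hUUU
    exact ⟨⟨c, mem_parCocycles.2 ⟨hc, ha, hb, by rw [cocycle_T hneg hc ha]; exact hT⟩⟩, rfl⟩

theorem finrank_parEllHoms_field (hneg : -1 ∈ Γ) :
    finrank K (parEllHoms Γ K K) + (orbitCount Γ S + orbitCount Γ U + orbitCount Γ T) =
      Γ.index + 2 := by
  let res : parCocycles Γ K K →ₗ[K] parEllHoms Γ K K :=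
    (restrict Γ K K).codRestrict _ fun c => restrict_mem hneg c
  have hsurj : Function.Surjective res := by
    intro φ
    obtain ⟨c, hc⟩ := exists_parCocycle (R := K) φ.2
    exact ⟨c, Subtype.ext hc⟩
  let cob : (Cosets Γ → K) →ₗ[K] parCocycles Γ K K :=
    (coboundary Γ K K).codRestrict _ coboundary_mem
  have hker : LinearMap.ker res = LinearMap.range cob := by
    ext c
    rw [LinearMap.mem_ker, LinearMap.mem_range]
    constructor
    · intro h
      obtain ⟨u, hu⟩ := (restrict_eq_zero_iff c).1 (congrArg Subtype.val h)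
      exact ⟨u, Subtype.ext hu⟩
    · rintro ⟨u, rfl⟩
      exact Subtype.ext ((restrict_eq_zero_iff _).2 ⟨u, rfl⟩)
  have hcobker : finrank K (LinearMap.ker cob) = 1 := by
    have : LinearMap.ker cob = K ∙ (fun _ => (1 : K) : Cosets Γ → K) := by
      ext u
      rw [LinearMap.mem_ker, Submodule.mem_span_singleton]
      constructor
      · intro hu
        refine ⟨u (base Γ), funext fun x => ?_⟩
        obtain ⟨g, hg⟩ : ∃ g : SL(2, ℤ), g • base Γ = x := MulAction.exists_smul_eq _ _ x
        have := congrFun (congrFun (congrArg Subtype.val hu) g) (base Γ)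
        simp [cob, coboundary, hg, sub_eq_zero] at this
        simp [this]
      · rintro ⟨r, rfl⟩
        apply Subtype.ext
        funext g x
        simp [cob, coboundary]
    rw [this]
    exact finrank_span_singleton fun h => one_ne_zero (congrFun h (base Γ))
  have h1 := LinearMap.finrank_range_add_finrank_ker cob
  rw [hcobker, finrank_fintype_fun_eq_card, ← Nat.card_eq_fintype_card] at h1
  have : FiniteDimensional K (parCocycles Γ K K) := by
    refine FiniteDimensional.of_injective
      (((LinearMap.proj S).prod (LinearMap.proj U)) ∘ₗ (parCocycles Γ K K).subtype) ?_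
    rw [← LinearMap.ker_eq_bot, LinearMap.ker_eq_bot']
    intro c hc
    exact Subtype.ext (Cocycle.eq_zero_of_gen c.2.1 (congrArg Prod.fst hc) (congrArg Prod.snd hc))
  have h2 := LinearMap.finrank_range_add_finrank_ker res
  rw [LinearMap.range_eq_top.2 hsurj, finrank_top, hker] at h2
  have h3 := finrank_parCocycles_add (K := K) hneg
  have hidx : Γ.index = Nat.card (Cosets Γ) := rfl
  omega

theorem finrank_parEllHoms_eq_parRank (hneg : -1 ∈ Γ) :
    finrank K (parEllHoms Γ K K) = parRank Γ := by
  have := finrank_parEllHoms_field (K := K) hneg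
  unfold parRank
  omega

theorem finiteDimensional_parEllHoms_field (hneg : -1 ∈ Γ) :
    FiniteDimensional K (parEllHoms Γ K K) := by
  have : FiniteDimensional K (parCocycles Γ K K) := by
    refine FiniteDimensional.of_injective
      (((LinearMap.proj S).prod (LinearMap.proj U)) ∘ₗ (parCocycles Γ K K).subtype) ?_
    rw [← LinearMap.ker_eq_bot, LinearMap.ker_eq_bot']
    intro c hc
    exact Subtype.ext (Cocycle.eq_zero_of_gen c.2.1 (congrArg Prod.fst hc) (congrArg Prod.snd hc))
  refine FiniteDimensional.of_surjective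
    ((restrict Γ K K).codRestrict (parEllHoms Γ K K) fun c => restrict_mem hneg c) ?_
  intro φ
  obtain ⟨c, hc⟩ := exists_parCocycle (R := K) φ.2
  exact ⟨c, Subtype.ext hc⟩

end Fermat.Agent.ParHom
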