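/-
The abelianisation of Γ modulo parabolic and elliptic elements is free of rank `parRank Γ`.
-/
import Fermat.Agent.ParHom.Rank
import Mathlib.GroupTheory.Abelianization.Defs
import Mathlib.GroupTheory.Schreier
import Mathlib.GroupTheory.FiniteAbelian.Basic
import Mathlib.RingTheory.Finiteness.Finsupp
import Mathlib.LinearAlgebra.Basis.Defs
import Mathlib.Algebra.Field.ZMod
import Mathlib.LinearAlgebra.FreeModule.Finite.Matrix

set_option autoImplicit false

namespace Fermat.Agent.ParHom

open scoped MatrixGroups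
open ModularGroup Module DirectSum

variable (Γ : Subgroup SL(2, ℤ))

/-- the classes of parabolic and elliptic elements -/
def killSubgroup : AddSubgroup (Additive (Abelianization Γ)) :=
  AddSubgroup.closure
    {x | ∃ γ : Γ, tr (γ : SL(2, ℤ)) ^ 2 ≤ 4 ∧ x = Additive.ofMul (Abelianization.of γ)}

/-- `Γ` abelianised modulo parabolic and elliptic elements -/
abbrev ParAb : Type := Additive (Abelianization Γ) ⧸ killSubgroup Γ

/-- the projection -/
def toParAb : Additive Γ →+ ParAb Γ :=
  (QuotientAddGroup.mk' (killSubgroup Γ)).comp Abelianization.of.toAdditive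

theorem toParAb_surjective : Function.Surjective (toParAb Γ) := by
  intro x
  obtain ⟨y, rfl⟩ := QuotientAddGroup.mk'_surjective (killSubgroup Γ) x
  obtain ⟨z, hz⟩ := QuotientGroup.mk_surjective (Additive.toMul y)
  exact ⟨Additive.ofMul z, congrArg (QuotientAddGroup.mk' _) (congrArg Additive.ofMul hz)⟩

theorem toParAb_isParEllHom : IsParEllHom Γ (toParAb Γ) := fun γ hγ =>
  (QuotientAddGroup.eq_zero_iff _).2 (AddSubgroup.subset_closure ⟨γ, hγ, rfl⟩)

variable {Γ}

theorem exists_comp_toParAb {A : Type*} [AddCommGroup A] {φ : Additive Γ →+ A}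
    (hφ : IsParEllHom Γ φ) : ∃ ψ : ParAb Γ →+ A, ψ.comp (toParAb Γ) = φ := by
  let φ₁ : Additive (Abelianization Γ) →+ A :=
    MonoidHom.toAdditiveLeft
      (Abelianization.lift (AddMonoidHom.toMultiplicativeRight φ : Γ →* Multiplicative A))
  refine ⟨QuotientAddGroup.lift (killSubgroup Γ) φ₁ ?_, ?_⟩
  · show killSubgroup Γ ≤ φ₁.ker
    refine (AddSubgroup.closure_le _).2 ?_
    rintro x ⟨γ, hγ, rfl⟩
    show φ₁ _ = 0
    simpa [φ₁] using hφ γ hγ
  · refine AddMonoidHom.ext fun γ => ?_
    obtain ⟨γ, rfl⟩ := Additive.ofMul.surjective γ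
    rfl

variable (Γ)

/-- composition with the projection -/
noncomputable def homParAbEquiv (R : Type*) [Semiring R] (A : Type*) [AddCommGroup A] [Module R A] :
    (ParAb Γ →+ A) ≃ₗ[R] parEllHoms Γ R A :=
  LinearEquiv.ofBijective
    { toFun := fun ψ => (⟨ψ.comp (toParAb Γ), (toParAb_isParEllHom Γ).comp ψ⟩ : parEllHoms Γ R A)
      map_add' := fun _ _ => rfl
      map_smul' := fun _ _ => rfl }
    ⟨fun ψ ψ' h => AddMonoidHom.cancel_right (toParAb_surjective Γ) |>.1 (congrArg Subtype.val h),
      fun φ => by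
        obtain ⟨ψ, hψ⟩ := exists_comp_toParAb φ.2
        exact ⟨ψ, Subtype.ext hψ⟩⟩

theorem group_fg_SL2Z : Group.FG SL(2, ℤ) :=
  Group.fg_iff.2 ⟨{S, T}, SpecialLinearGroup.SL2Z_generators, Set.toFinite _⟩

variable [Γ.FiniteIndex]

theorem addGroup_fg_parAb : AddGroup.FG (ParAb Γ) := by
  have := group_fg_SL2Z
  have : Group.FG Γ := Subgroup.fg_of_index_ne_zero Γ
  have : AddGroup.FG (Additive Γ) := GroupFG.iff_add_fg.1 inferInstance
  exact AddGroup.fg_of_surjective (f := toParAb Γ) (toParAb_surjective Γ)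

variable {Γ}

theorem finrank_homParAb (hneg : -1 ∈ Γ) (K : Type*) [Field K] :
    finrank K (ParAb Γ →+ K) = parRank Γ := by
  rw [(homParAbEquiv Γ K K).finrank_eq]
  exact finrank_parEllHoms_eq_parRank hneg

theorem finiteDimensional_homParAb (hneg : -1 ∈ Γ) (K : Type*) [Field K] :
    FiniteDimensional K (ParAb Γ →+ K) := by
  have := finiteDimensional_parEllHoms_field (K := K) hneg
  exact Module.Finite.equiv (homParAbEquiv Γ K K).symm

/-- evaluation on the unit vectors identifies `Hom (ℤ ^ n, K)` with `K ^ n` -/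
noncomputable def homFinsuppEquiv (n : ℕ) (K : Type*) [Field K] :
    ((Fin n →₀ ℤ) →+ K) ≃ₗ[K] (Fin n → K) where
  toFun ψ i := ψ (Finsupp.single i 1)
  map_add' _ _ := rfl
  map_smul' _ _ := rfl
  invFun v := Finsupp.liftAddHom fun i => (zmultiplesHom K (v i))
  left_inv ψ := by
    refine Finsupp.addHom_ext' fun i => AddMonoidHom.ext_int ?_
    simp
  right_inv v := by ext i; simp

theorem exists_parAb_equiv (hneg : -1 ∈ Γ) :
    Nonempty (ParAb Γ ≃+ (Fin (parRank Γ) → ℤ)) := by
  classical
  have := addGroup_fg_parAb Γ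
  obtain ⟨n, ι, fι, p, hp, e, ⟨f⟩⟩ := AddCommGroup.equiv_free_prod_directSum_zmod (ParAb Γ)
  -- the rank, by rational coefficients
  have hn : n = parRank Γ := by
    have htors : ∀ (ψ : (⨁ i : ι, ZMod (p i ^ e i)) →+ ℚ), ψ = 0 := by
      intro ψ
      refine DirectSum.addHom_ext fun i y => ?_
      have h := map_nsmul ψ (p i ^ e i) (DirectSum.of _ i y)
      rw [← map_nsmul (DirectSum.of _ i), nsmul_eq_mul, ZMod.natCast_self, zero_mul, map_zero,
        map_zero, nsmul_eq_mul, zero_eq_mul] at h
      rcases h with h | h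
      · exact absurd h (by exact_mod_cast (pow_pos (hp i).pos _).ne')
      · simpa using h
    let Φ : (ParAb Γ →+ ℚ) →ₗ[ℚ] ((Fin n →₀ ℤ) →+ ℚ) :=
      { toFun := fun ψ => (ψ.comp f.symm.toAddMonoidHom).comp (AddMonoidHom.inl _ _)
        map_add' := fun _ _ => rfl
        map_smul' := fun _ _ => rfl }
    have hbij : Function.Bijective Φ := by
      constructor
      · intro ψ ψ' h
        have h2 : ψ.comp f.symm.toAddMonoidHom = ψ'.comp f.symm.toAddMonoidHom := by
          refine AddMonoidHom.ext fun x => ?_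
          have e1 := DFunLike.congr_fun h x.1
          have e2 : ∀ χ : ParAb Γ →+ ℚ, χ (f.symm (0, x.2)) = 0 := fun χ =>
            DFunLike.congr_fun
              (htors ((χ.comp f.symm.toAddMonoidHom).comp (AddMonoidHom.inr _ _))) x.2
          have hx : x = (x.1, 0) + (0, x.2) := by simp
          rw [hx]
          simp [Φ] at e1 ⊢
          conv_lhs => rw [hx, map_add f.symm, map_add, e1, e2]
          conv_rhs => rw [hx, map_add f.symm, map_add, e2]
        refine AddMonoidHom.ext fun x => ?_
        simpa using DFunLike.congr_fun h2 (f x)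
      · intro χ
        refine ⟨(χ.comp (AddMonoidHom.fst _ _)).comp f.toAddMonoidHom, AddMonoidHom.ext fun v => ?_⟩
        simp [Φ]
    rw [← finrank_homParAb hneg ℚ, (LinearEquiv.ofBijective Φ hbij).finrank_eq,
      (homFinsuppEquiv n ℚ).finrank_eq, finrank_fintype_fun_eq_card, Fintype.card_fin]
  -- no torsion, by coefficients in prime fields
  have he : ∀ i, e i = 0 := by
    intro i
    by_contra hi
    have : Fact (p i).Prime := ⟨hp i⟩
    have hdvd : p i ∣ p i ^ e i := dvd_pow_self _ hi
    let Ψ : (Fin n → ZMod (p i)) × ZMod (p i) →ₗ[ZMod (p i)] (ParAb Γ →+ ZMod (p i)) :=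
      { toFun := fun v =>
          (((homFinsuppEquiv n (ZMod (p i))).symm v.1).coprod
            (((AddMonoidHom.mulLeft v.2).comp
              (ZMod.castHom hdvd (ZMod (p i))).toAddMonoidHom).comp
              (DFinsupp.evalAddMonoidHom i))).comp f.toAddMonoidHom
        map_add' := fun v w => by
          refine AddMonoidHom.ext fun x => ?_
          simp [add_mul, add_add_add_comm]
        map_smul' := fun c v => by
          refine AddMonoidHom.ext fun x => ?_
          simp [mul_add, mul_assoc] }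
    have hinj : Function.Injective Ψ := by
      rw [← LinearMap.ker_eq_bot, LinearMap.ker_eq_bot']
      intro v hv
      refine Prod.ext ?_ ?_
      · funext j
        have h := DFunLike.congr_fun hv (f.symm (Finsupp.single j 1, 0))
        simpa [Ψ, homFinsuppEquiv] using h
      · have h := DFunLike.congr_fun hv (f.symm (0, DirectSum.of _ i 1))
        have key : DFinsupp.evalAddMonoidHom i
            (DirectSum.of (fun i => ZMod (p i ^ e i)) i 1) = 1 := DirectSum.of_eq_same i 1
        simp [Ψ, key, ZMod.cast_one hdvd] at h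
        exact h
    have := finiteDimensional_homParAb hneg (ZMod (p i))
    have h := LinearMap.finrank_le_finrank_of_injective hinj
    rw [finrank_homParAb hneg, Module.finrank_prod, finrank_fintype_fun_eq_card, Fintype.card_fin,
      finrank_self, hn] at h
    omega
  have : ∀ i, Subsingleton (ZMod (p i ^ e i)) := fun i => by
    rw [he i, pow_zero]; infer_instance
  have : Unique (⨁ i : ι, ZMod (p i ^ e i)) :=
    { default := 0, uniq := fun x => DFinsupp.ext fun i => Subsingleton.elim _ _ }
  subst hn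
  exact ⟨(f.trans AddEquiv.prodUnique).trans (Finsupp.linearEquivFunOnFinite ℤ ℤ _).toAddEquiv⟩

theorem exists_parData (hneg : -1 ∈ Γ) :
    ∃ (gen : Fin (parRank Γ) → Γ) (e : Fin (parRank Γ) → (Additive Γ →+ ℤ)),
      (∀ i, IsParEllHom Γ (e i)) ∧
      (∀ i j, e i (Additive.ofMul (gen j)) = if i = j then 1 else 0) ∧
      ∀ γ, toParAb Γ γ = ∑ i, e i γ • toParAb Γ (Additive.ofMul (gen i)) := by
  classical
  obtain ⟨F⟩ := exists_parAb_equiv hneg
  choose gen hgen using fun i : Fin (parRank Γ) =>
    toParAb_surjective Γ (F.symm (Pi.single i 1))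
  refine ⟨fun i => Additive.toMul (gen i),
    fun i => ((Pi.evalAddMonoidHom _ i).comp F.toAddMonoidHom).comp (toParAb Γ), fun i => ?_,
    fun i j => ?_, fun γ => ?_⟩
  · exact (toParAb_isParEllHom Γ).comp ((Pi.evalAddMonoidHom _ i).comp F.toAddMonoidHom)
  · simp [hgen, Pi.single_apply]
  · apply F.injective
    funext j
    simp [hgen, Finset.sum_apply, Pi.single_apply]

end Fermat.Agent.ParHom
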