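/-
Freeness of the parabolic-elliptic homomorphisms of a finite index subgroup of SL(2, ℤ).
-/
import Fermat.Agent.ParHom.ParAb
import Mathlib.LinearAlgebra.Dimension.Free
import Mathlib.LinearAlgebra.FreeModule.Basic
import Mathlib.SetTheory.Cardinal.Finite

set_option autoImplicit false

namespace Fermat.Agent.ParHom

open scoped MatrixGroups
open ModularGroup ModularCurve.Period

variable {Γ : Subgroup SL(2, ℤ)}

/-- Parabolic homomorphisms to a group without torsion kill the elliptic elements. -/
theorem isParabolicHom_iff {A : Type*} [AddCommGroup A] [IsAddTorsionFree A]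
    {φ : Additive Γ →+ A} : IsParabolicHom Γ φ ↔ IsParEllHom Γ φ := by
  refine ⟨fun h γ hγ => ?_, IsParEllHom.isParabolicHom⟩
  rcases hγ.lt_or_eq with hlt | heq
  · have h1 : γ ^ 12 = 1 := Subtype.ext (by simpa using pow_twelve_eq_one_of_tr_sq_lt hlt)
    have h2 := congrArg (fun x : Γ => φ (Additive.ofMul x)) h1
    simp only [ofMul_pow, map_nsmul, ofMul_one, map_zero] at h2
    exact nsmul_right_injective (by norm_num : (12 : ℕ) ≠ 0) (h2.trans (nsmul_zero 12).symm)
  · exact h γ heq

theorem parabolicHoms_eq_parEllHoms {R : Type*} [Semiring R] {A : Type*} [AddCommGroup A]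
    [Module R A] [IsAddTorsionFree A] : parabolicHoms R Γ A = parEllHoms Γ R A :=
  Submodule.ext fun _ => isParabolicHom_iff

variable [Γ.FiniteIndex] (hneg : -1 ∈ Γ)

/-- Elements of `Γ` on which parabolic-elliptic homomorphisms take arbitrary, determining values. -/
noncomputable def parGen : Fin (parRank Γ) → Γ :=
  (exists_parData hneg).choose

/-- the dual integral homomorphisms -/
noncomputable def parDual : Fin (parRank Γ) → (Additive Γ →+ ℤ) :=
  (exists_parData hneg).choose_spec.choose

theorem parDual_isParEllHom (i : Fin (parRank Γ)) : IsParEllHom Γ (parDual hneg i) :=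
  (exists_parData hneg).choose_spec.choose_spec.1 i

theorem parDual_parGen (i j : Fin (parRank Γ)) :
    parDual hneg i (Additive.ofMul (parGen hneg j)) = if i = j then 1 else 0 :=
  (exists_parData hneg).choose_spec.choose_spec.2.1 i j

theorem toParAb_eq_sum (γ : Additive Γ) :
    toParAb Γ γ = ∑ i, parDual hneg i γ • toParAb Γ (Additive.ofMul (parGen hneg i)) :=
  (exists_parData hneg).choose_spec.choose_spec.2.2 γ

theorem IsParEllHom.apply_eq_sum {A : Type*} [AddCommGroup A] {φ : Additive Γ →+ A}
    (hφ : IsParEllHom Γ φ) (γ : Additive Γ) :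
    φ γ = ∑ i, parDual hneg i γ • φ (Additive.ofMul (parGen hneg i)) := by
  obtain ⟨ψ, rfl⟩ := exists_comp_toParAb hφ
  rw [AddMonoidHom.comp_apply, toParAb_eq_sum hneg, map_sum]
  simp [map_zsmul]

theorem IsParEllHom.ext_parGen {A : Type*} [AddCommGroup A] {φ ψ : Additive Γ →+ A}
    (hφ : IsParEllHom Γ φ) (hψ : IsParEllHom Γ ψ)
    (h : ∀ i, φ (Additive.ofMul (parGen hneg i)) = ψ (Additive.ofMul (parGen hneg i))) : φ = ψ := by
  refine AddMonoidHom.ext fun γ => ?_
  rw [hφ.apply_eq_sum hneg, hψ.apply_eq_sum hneg]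
  simp [h]

theorem exists_isParEllHom_eval {A : Type*} [AddCommGroup A] (a : Fin (parRank Γ) → A) :
    ∃ φ : Additive Γ →+ A, IsParEllHom Γ φ ∧
      ∀ i, φ (Additive.ofMul (parGen hneg i)) = a i := by
  refine ⟨∑ i, (zmultiplesHom A (a i)).comp (parDual hneg i), ?_, fun j => ?_⟩
  · intro γ hγ
    simp [fun i => parDual_isParEllHom hneg i γ hγ]
  · simp [parDual_parGen, ite_smul]

section Eval

variable (R : Type*) [Semiring R] (A : Type*) [AddCommGroup A] [Module R A]

/-- Evaluation on the chosen elements. -/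
noncomputable def evalGen : parEllHoms Γ R A →ₗ[R] (Fin (parRank Γ) → A) where
  toFun φ i := (φ : Additive Γ →+ A) (Additive.ofMul (parGen hneg i))
  map_add' _ _ := rfl
  map_smul' _ _ := rfl

@[simp] theorem evalGen_apply (φ : parEllHoms Γ R A) (i : Fin (parRank Γ)) :
    evalGen hneg R A φ i = (φ : Additive Γ →+ A) (Additive.ofMul (parGen hneg i)) := rfl

theorem evalGen_bijective : Function.Bijective (evalGen hneg R A) := by
  refine ⟨fun φ ψ h => Subtype.ext (IsParEllHom.ext_parGen hneg φ.2 ψ.2 fun i => congrFun h i),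
    fun a => ?_⟩
  obtain ⟨φ, hφ, hφa⟩ := exists_isParEllHom_eval hneg a
  exact ⟨⟨φ, hφ⟩, funext hφa⟩

/-- `H_A ≅ A ^ (2 g)`, naturally in `A`. -/
noncomputable def parEquiv : parEllHoms Γ R A ≃ₗ[R] (Fin (parRank Γ) → A) :=
  LinearEquiv.ofBijective (evalGen hneg R A) (evalGen_bijective hneg R A)

@[simp] theorem parEquiv_apply (φ : parEllHoms Γ R A) (i : Fin (parRank Γ)) :
    parEquiv hneg R A φ i = (φ : Additive Γ →+ A) (Additive.ofMul (parGen hneg i)) := rfl

end Eval

include hneg

/-- An integral dual basis: every parabolic-elliptic homomorphism factors uniquely through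
finitely many integral ones. -/
theorem exists_integral_basis :
    ∃ e : Fin (parRank Γ) → (Additive Γ →+ ℤ), (∀ i, IsParEllHom Γ (e i)) ∧
      ∀ (A : Type*) [AddCommGroup A] (φ : Additive Γ →+ A), IsParEllHom Γ φ →
        ∀ γ, φ γ = ∑ i, e i γ • φ (Additive.ofMul (parGen hneg i)) :=
  ⟨parDual hneg, parDual_isParEllHom hneg, fun _ _ _ hφ => hφ.apply_eq_sum hneg⟩

/-- Surjective coefficient maps induce surjective maps of parabolic-elliptic homomorphisms. -/
theorem exists_lift_of_surjective {A B : Type*} [AddCommGroup A] [AddCommGroup B]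
    (f : A →+ B) (hf : Function.Surjective f) {ψ : Additive Γ →+ B} (hψ : IsParEllHom Γ ψ) :
    ∃ φ : Additive Γ →+ A, IsParEllHom Γ φ ∧ f.comp φ = ψ := by
  choose g hg using hf
  obtain ⟨φ, hφ, hφa⟩ := exists_isParEllHom_eval hneg
    fun i => g (ψ (Additive.ofMul (parGen hneg i)))
  exact ⟨φ, hφ, IsParEllHom.ext_parGen hneg (hφ.comp f) hψ fun i => by simp [hφa, hg]⟩

theorem module_free_parEllHoms (R : Type*) [CommRing R] :
    Module.Free R (parEllHoms Γ R R) :=
  Module.Free.of_equiv (parEquiv hneg R R).symm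

theorem module_finite_parEllHoms (R : Type*) [CommRing R] :
    Module.Finite R (parEllHoms Γ R R) :=
  Module.Finite.equiv (parEquiv hneg R R).symm

theorem finrank_parEllHoms (R : Type*) [CommRing R] [Nontrivial R] :
    Module.finrank R (parEllHoms Γ R R) = parRank Γ := by
  rw [(parEquiv hneg R R).finrank_eq, Module.finrank_fintype_fun_eq_card, Fintype.card_fin]

theorem finrank_parabolicHoms (K : Type*) [Field K] [CharZero K] :
    Module.finrank K (parabolicHoms K Γ K) = parRank Γ := by
  rw [parabolicHoms_eq_parEllHoms, finrank_parEllHoms hneg K]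

theorem finiteDimensional_parabolicHoms (K : Type*) [Field K] [CharZero K] :
    FiniteDimensional K (parabolicHoms K Γ K) := by
  rw [parabolicHoms_eq_parEllHoms]
  exact module_finite_parEllHoms hneg K

theorem finite_parEllHoms (R : Type*) [Semiring R] (A : Type*) [AddCommGroup A] [Module R A]
    [Finite A] : Finite (parEllHoms Γ R A) :=
  Finite.of_equiv _ (parEquiv hneg R A).symm.toEquiv

theorem card_parEllHoms (A : Type*) [AddCommGroup A] [Finite A] :
    Nat.card (parEllHoms Γ ℤ A) = Nat.card A ^ parRank Γ := by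
  rw [Nat.card_congr (parEquiv hneg ℤ A).toEquiv, Nat.card_fun, Nat.card_fin]

/-- A parabolic-elliptic homomorphism to `A` is determined by integral ones: `H_A` is spanned by
the images of `H_ℤ`. -/
theorem span_intCast_eq_top (R : Type*) [CommRing R] :
    Submodule.span R {φ : Additive Γ →+ R | ∃ e : Additive Γ →+ ℤ,
      IsParEllHom Γ e ∧ φ = (Int.castAddHom R).comp e} = parEllHoms Γ R R := by
  refine le_antisymm (Submodule.span_le.2 ?_) fun φ hφ => ?_
  · rintro _ ⟨e, he, rfl⟩
    exact he.comp _
  · have : φ = ∑ i, φ (Additive.ofMul (parGen hneg i)) •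
        (Int.castAddHom R).comp (parDual hneg i) := by
      refine AddMonoidHom.ext fun γ => ?_
      rw [(show IsParEllHom Γ φ from hφ).apply_eq_sum hneg γ]
      simp [mul_comm]
    rw [this]
    exact sum_mem fun i _ => Submodule.smul_mem _ _
      (Submodule.subset_span ⟨_, parDual_isParEllHom hneg i, rfl⟩)

end Fermat.Agent.ParHom
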