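/-
The rank of parabolic homomorphisms of Gamma0(N).
-/
import Fermat.Agent.ParHom.Free
import Fermat.Agent.Gamma0.Cusps
import Fermat.Agent.Gamma0.Elliptic
import Fermat.Prelude.Def_ModularCurve_GenusNumerics
import Mathlib.NumberTheory.ModularForms.CongruenceSubgroups

set_option autoImplicit false

namespace Fermat.Agent.ParHom

open CongruenceSubgroup ModularCurve
open ModularGroup (S T)

theorem neg_one_mem_Gamma0 (N : ℕ) : (-1 : Matrix.SpecialLinearGroup (Fin 2) ℤ) ∈ Gamma0 N := by
  simp [Gamma0_mem]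

/-- The rank for `Gamma0 N` is `2 g`. -/
theorem parRank_Gamma0 (N : ℕ) [NeZero N] :
    (parRank (Gamma0 N) : ℚ) = 2 * genusFormula N := by
  have h := finrank_parEllHoms_field (K := ℚ) (neg_one_mem_Gamma0 N)
  rw [finrank_parEllHoms_eq_parRank (neg_one_mem_Gamma0 N), Gamma0.index_Gamma0] at h
  have hS : 2 * orbitCount (Gamma0 N) S = dedekindPsi N + nuTwo N := by
    rw [← Gamma0.card_coset]; exact Gamma0.two_mul_card_orbits_S N
  have hU : 3 * orbitCount (Gamma0 N) U = dedekindPsi N + 2 * nuThree N := by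
    rw [← Gamma0.card_coset]; exact Gamma0.three_mul_card_orbits_ST N
  have hT : orbitCount (Gamma0 N) T = cuspCount N := Gamma0.card_cuspOrbit N
  replace h := congrArg (fun n : ℕ => (n : ℚ)) h
  replace hS := congrArg (fun n : ℕ => (n : ℚ)) hS
  replace hU := congrArg (fun n : ℕ => (n : ℚ)) hU
  replace hT := congrArg (fun n : ℕ => (n : ℚ)) hT
  push_cast at h hS hU hT
  unfold genusFormula
  linarith

theorem finrank_parabolicHoms_Gamma0 (N : ℕ) [NeZero N] :
    (Module.finrank ℂ (Period.parabolicHoms ℂ (Gamma0 N) ℂ) : ℚ) = 2 * genusFormula N := by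
  rw [finrank_parabolicHoms (neg_one_mem_Gamma0 N), parRank_Gamma0]

theorem finite_parabolicHoms_Gamma0 (N : ℕ) [NeZero N] :
    Module.Finite ℂ (Period.parabolicHoms ℂ (Gamma0 N) ℂ) :=
  finiteDimensional_parabolicHoms (neg_one_mem_Gamma0 N) ℂ

end Fermat.Agent.ParHom
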